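import Mathlib

set_option autoImplicit false

namespace Fermat.Agent.S49

open Module

section Core

variable {K V T : Type*} [Field K] [AddCommGroup V] [Module K V] [CommRing T]

/-- stable subspace whose annihilator lies in `m`. -/
def Good (ρ : T →+* Module.End K V) (m : Ideal T) (W : Submodule K V) : Prop :=
  (∀ t : T, ∀ w ∈ W, ρ t w ∈ W) ∧ ∀ x : T, (∀ w ∈ W, ρ x w = 0) → x ∈ m

theorem Good.ne_bot {ρ : T →+* Module.End K V} {m : Ideal T} (hm : m ≠ ⊤) {W : Submodule K V}
    (hW : Good ρ m W) : W ≠ ⊥ := by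
  rintro rfl
  apply hm
  rw [Ideal.eq_top_iff_one]
  apply hW.2
  intro w hw
  rw [Submodule.mem_bot] at hw
  simp [hw]

theorem rho_comm (ρ : T →+* Module.End K V) (s t : T) (w : V) :
    ρ s (ρ t w) = ρ t (ρ s w) := by
  have h1 : (ρ s * ρ t) w = (ρ t * ρ s) w := by
    rw [← map_mul, ← map_mul, mul_comm]
  simpa using h1

theorem exists_good_scalar [IsAlgClosed K] [FiniteDimensional K V] (ρ : T →+* Module.End K V) (m : Ideal T) [hp : m.IsPrime] :
    ∀ (n : ℕ) (W : Submodule K V), finrank K W = n → Good ρ m W →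
      ∃ W' : Submodule K V, W' ≤ W ∧ Good ρ m W' ∧
        ∀ t : T, ∃ μ : K, ∀ w ∈ W', ρ t w = μ • w := by
  intro n
  induction n using Nat.strong_induction_on with
  | _ n ih =>
    intro W hn hW
    by_cases hsc : ∀ t : T, ∃ μ : K, ∀ w ∈ W, ρ t w = μ • w
    · exact ⟨W, le_rfl, hW, hsc⟩
    · push Not at hsc
      obtain ⟨t, ht⟩ := hsc
      have hWne : W ≠ ⊥ := hW.ne_bot hp.ne_top
      have hstab : ∀ w ∈ W, ρ t w ∈ W := hW.1 t
      have : Nontrivial W := (Submodule.nontrivial_iff_ne_bot).mpr hWne
      obtain ⟨μ, hμ⟩ := Module.End.exists_eigenvalue ((ρ t).restrict hstab)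
      obtain ⟨w0, hw0⟩ := hμ.exists_hasEigenvector
      have hw0ne : (w0 : V) ≠ 0 := fun h => hw0.2 (Subtype.ext h)
      have hw0eig : ρ t (w0 : V) = μ • (w0 : V) := by
        have := hw0.apply_eq_smul
        have h2 := congrArg Subtype.val this
        simpa using h2
      -- the operator g = ρ t - μ
      set g : Module.End K V := ρ t - algebraMap K (Module.End K V) μ with hg
      have hgapp : ∀ w, g w = ρ t w - μ • w := by
        intro w; simp [hg, Module.algebraMap_end_apply]
      have hgcomm : ∀ s : T, ∀ w, g (ρ s w) = ρ s (g w) := by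
        intro s w
        rw [hgapp, hgapp, map_sub, map_smul, rho_comm]
      set W1 : Submodule K V := W.map g with hW1
      set W2 : Submodule K V := W ⊓ LinearMap.ker g with hW2
      have hW1le : W1 ≤ W := by
        rintro _ ⟨w, hw, rfl⟩
        rw [hgapp]
        exact W.sub_mem (hstab w hw) (W.smul_mem μ hw)
      have hW2le : W2 ≤ W := inf_le_left
      have hW1stab : ∀ s : T, ∀ w ∈ W1, ρ s w ∈ W1 := by
        rintro s _ ⟨w, hw, rfl⟩
        exact ⟨ρ s w, hW.1 s w hw, hgcomm s w⟩
      have hW2stab : ∀ s : T, ∀ w ∈ W2, ρ s w ∈ W2 := by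
        intro s w hw
        rw [hW2, Submodule.mem_inf, LinearMap.mem_ker] at hw ⊢
        refine ⟨hW.1 s w hw.1, ?_⟩
        rw [hgcomm, hw.2, map_zero]
      -- W1 is strictly smaller
      have hW1lt : finrank K W1 < finrank K W := by
        have hrn := LinearMap.finrank_range_add_finrank_ker (g.domRestrict W)
        have hrange : LinearMap.range (g.domRestrict W) = W1 := by
          rw [LinearMap.range_domRestrict]
        rw [hrange] at hrn
        have hker : 0 < finrank K (LinearMap.ker (g.domRestrict W)) := by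
          rw [Module.finrank_pos_iff_exists_ne_zero]
          refine ⟨⟨w0, ?_⟩, ?_⟩
          · rw [LinearMap.mem_ker, LinearMap.domRestrict_apply, hgapp, hw0eig, sub_self]
          · intro h
            apply hw0.2
            exact congrArg Subtype.val h
        omega
      -- W2 is strictly smaller
      have hW2lt : finrank K W2 < finrank K W := by
        apply Submodule.finrank_lt_finrank_of_lt
        refine lt_of_le_of_ne hW2le ?_
        intro heq
        obtain ⟨w, hw, hne⟩ := ht μ
        apply hne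
        have hmem : w ∈ W2 := by rw [heq]; exact hw
        rw [hW2, Submodule.mem_inf, LinearMap.mem_ker, hgapp, sub_eq_zero] at hmem
        exact hmem.2
      by_cases hG1 : Good ρ m W1
      · obtain ⟨W', hW'le, hW'g, hW'sc⟩ := ih _ (hn ▸ hW1lt) W1 rfl hG1
        exact ⟨W', hW'le.trans hW1le, hW'g, hW'sc⟩
      · -- then W2 is good
        have hG2 : Good ρ m W2 := by
          refine ⟨hW2stab, ?_⟩
          intro x hx
          have : ∃ y : T, (∀ w ∈ W1, ρ y w = 0) ∧ y ∉ m := by
            by_contra hcon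
            push Not at hcon
            exact hG1 ⟨hW1stab, hcon⟩
          obtain ⟨y, hy, hym⟩ := this
          have hxy : x * y ∈ m := by
            apply hW.2
            intro w hw
            rw [map_mul, Module.End.mul_apply]
            apply hx
            rw [hW2, Submodule.mem_inf, LinearMap.mem_ker, hgcomm]
            exact ⟨hW.1 y w hw, hy _ ⟨w, hw, rfl⟩⟩
          rcases hp.mem_or_mem hxy with h | h
          · exact h
          · exact absurd h hym
        obtain ⟨W', hW'le, hW'g, hW'sc⟩ := ih _ (hn ▸ hW2lt) W2 rfl hG2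
        exact ⟨W', hW'le.trans hW2le, hW'g, hW'sc⟩

theorem exists_eigen_character [IsAlgClosed K] [FiniteDimensional K V]
    (ρ : T →+* Module.End K V) (hρ : Function.Injective ρ) (m : Ideal T) [hp : m.IsPrime] :
    ∃ (v : V) (χ : T →+* K), v ≠ 0 ∧ (∀ t, ρ t v = χ t • v) ∧ ∀ t, χ t = 0 → t ∈ m := by
  have htop : Good ρ m (⊤ : Submodule K V) := by
    refine ⟨fun _ _ _ => Submodule.mem_top, ?_⟩
    intro x hx
    have hx0 : ρ x = 0 := LinearMap.ext fun w => by simpa using hx w Submodule.mem_top
    have : x = 0 := hρ (by rw [hx0, map_zero])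
    rw [this]
    exact m.zero_mem
  obtain ⟨W, -, hW, hsc⟩ := exists_good_scalar ρ m _ ⊤ rfl htop
  choose μ hμ using hsc
  obtain ⟨v, hvW, hv⟩ := Submodule.exists_mem_ne_zero_of_ne_bot (hW.ne_bot hp.ne_top)
  have hinj : Function.Injective fun c : K => c • v := smul_left_injective K hv
  refine ⟨v, ⟨⟨⟨μ, ?_⟩, ?_⟩, ?_, ?_⟩, hv, fun t => hμ t v hvW, ?_⟩
  · apply hinj
    simp only
    rw [← hμ 1 v hvW, map_one, one_smul, Module.End.one_apply]
  · intro s t
    apply hinj
    simp only
    rw [← hμ (s * t) v hvW, map_mul, Module.End.mul_apply, hμ t v hvW, map_smul, hμ s v hvW,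
      smul_smul, mul_comm]
  · apply hinj
    simp only
    rw [← hμ 0 v hvW, map_zero, zero_smul, LinearMap.zero_apply]
  · intro s t
    apply hinj
    simp only
    rw [← hμ (s + t) v hvW, map_add, LinearMap.add_apply, hμ s v hvW, hμ t v hvW, add_smul]
  · intro t ht
    apply hW.2
    intro w hw
    have h0 : μ t = 0 := ht
    rw [hμ t w hw, h0, zero_smul]

end Core

end Fermat.Agent.S49
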