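import Fermat.Agent.S49.Forms

set_option autoImplicit false

namespace Fermat.Agent.S49

open CongruenceSubgroup ModularFormClass UpperHalfPlane EisensteinWeightOne
open P2MW.S_CuspForm_intLattice_fg.W3WsD

noncomputable section

theorem e1Chi3In_int : e1Chi3In ℤ = 1 + PowerSeries.C (3 : ℤ) *
    PowerSeries.mk (fun n => if n = 0 then 0 else 2 * sigmaChi n) := by
  ext n
  simp only [e1Chi3In, e1Chi3, PowerSeries.coeff_map, PowerSeries.coeff_mk, map_add,
    PowerSeries.coeff_one, PowerSeries.coeff_C_mul, Int.coe_castRingHom, Int.cast_id]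
  split_ifs <;> ring

theorem bridge_coeff_mod_three (a : ℕ → ℤ) (n : ℕ) :
    (3 : ℤ) ∣ (bridgeProduct a).coeff n - a n := by
  set S : PowerSeries ℤ := PowerSeries.mk (fun n => if n = 0 then 0 else 2 * sigmaChi n) with hS
  have h1 : bridgeProduct a =
      PowerSeries.mk a + PowerSeries.C (3 : ℤ) * (PowerSeries.mk a * S) := by
    rw [bridgeProduct, e1Chi3In_int]
    ring
  rw [h1, map_add, PowerSeries.coeff_mk, PowerSeries.coeff_C_mul]
  exact ⟨(PowerSeries.coeff n) (PowerSeries.mk a * S), by ring⟩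

theorem chi_mod_three (ℓ : ℕ) : (3 : ℤ) ∣ (ℓ : ℤ) - chiNegThree ℓ := by
  unfold chiNegThree
  split_ifs <;> omega

variable {N : ℕ} {k : ℤ}

theorem qc_heckeTLin {p : ℕ} (hp : p.Prime) (hpN : ¬ p ∣ N) (f : CuspForm (Gamma0 N) k) (n : ℕ) :
    qCoeff ⇑(CuspForm.heckeTLin k hp hpN f) n = ModularForm.coeffHeckeT k p (qCoeff ⇑f) n := by
  rw [CuspForm.coe_heckeTLin_apply]
  exact ModularFormClass.qCoeff_heckeT f (hΓ N) hp.ne_zero n

theorem qc_heckeULin [NeZero N] {p : ℕ} (hp : p.Prime) (hpN : p ∣ N) (f : CuspForm (Gamma0 N) k)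
    (n : ℕ) :
    qCoeff ⇑(CuspForm.heckeULin k hpN f) n = ModularForm.coeffHeckeU p (qCoeff ⇑f) n := by
  rw [CuspForm.coe_heckeULin_apply]
  exact ModularFormClass.qCoeff_heckeU f (hΓ N) hp.ne_zero n

/-- a form in the lattice whose coefficients are all divisible by three is three times a form
in the lattice. -/
theorem exists_eq_three_smul (g : CuspForm (Gamma0 N) k)
    (hg : ∀ n : ℕ, ∃ m : ℤ, qCoeff ⇑g n = ((3 * m : ℤ) : ℂ)) :
    ∃ g' ∈ CuspForm.intLattice N k, g = (3 : ℤ) • g' := by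
  refine ⟨(3⁻¹ : ℂ) • g, ?_, ?_⟩
  · rw [mem_intLattice_iff]
    intro n
    obtain ⟨m, hm⟩ := hg n
    refine ⟨m, ?_⟩
    rw [qc_smul, hm]
    push_cast
    field_simp
  · rw [← Int.cast_smul_eq_zsmul ℂ, smul_smul]
    norm_num

end

end Fermat.Agent.S49
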