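import Mathlib

set_option autoImplicit false

namespace Fermat.Agent.S49

section Mult

variable {R : Type*} [CommRing R]

/-- the formal Hecke relation for a sequence. -/
def HeckeRel (e lam b : ℕ → R) : Prop :=
  ∀ ℓ : ℕ, ℓ.Prime → ∀ n : ℕ,
    b (n * ℓ) + (if ℓ ∣ n then e ℓ * b (n / ℓ) else 0) = lam ℓ * b n

theorem HeckeRel.eq_zero_of_one {e lam b : ℕ → R} (h : HeckeRel e lam b) (h1 : b 1 = 0) :
    ∀ n : ℕ, 1 ≤ n → b n = 0 := by
  intro n
  induction n using Nat.strong_induction_on with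
  | _ n ih =>
    intro hn
    rcases Nat.eq_or_lt_of_le hn with h1n | h1n
    · rw [← h1n]; exact h1
    · have hn1 : n ≠ 1 := by omega
      set ℓ := n.minFac with hℓ
      have hℓp : ℓ.Prime := Nat.minFac_prime hn1
      have hdvd : ℓ ∣ n := Nat.minFac_dvd n
      obtain ⟨m, hm⟩ := hdvd
      have hℓ2 : 2 ≤ ℓ := hℓp.two_le
      have hmpos : 1 ≤ m := by
        rcases Nat.eq_zero_or_pos m with h0 | h0
        · rw [h0, mul_zero] at hm; omega
        · exact h0
      have hmlt : m < n := by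
        rw [hm]
        calc m = 1 * m := (one_mul m).symm
          _ < ℓ * m := Nat.mul_lt_mul_of_pos_right (by omega) hmpos
      have hrel := h ℓ hℓp m
      have hbm : b m = 0 := ih m hmlt hmpos
      have hn' : n = m * ℓ := by rw [hm, mul_comm]
      rw [hn']
      by_cases hd : ℓ ∣ m
      · rw [if_pos hd] at hrel
        have hq : 1 ≤ m / ℓ := Nat.div_pos (Nat.le_of_dvd hmpos hd) hℓp.pos
        have hqlt : m / ℓ < n := lt_of_le_of_lt (Nat.div_le_self m ℓ) hmlt
        have hbq : b (m / ℓ) = 0 := ih _ hqlt hq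
        rw [hbq, hbm, mul_zero, mul_zero, add_zero] at hrel
        exact hrel
      · rw [if_neg hd, hbm, mul_zero, add_zero] at hrel
        exact hrel

theorem HeckeRel.prime_eq {e lam b : ℕ → R} (h : HeckeRel e lam b) (h1 : b 1 = 1)
    {ℓ : ℕ} (hℓ : ℓ.Prime) : b ℓ = lam ℓ := by
  have hrel := h ℓ hℓ 1
  have hnd : ¬ ℓ ∣ 1 := by
    intro hd
    exact hℓ.one_lt.ne' (Nat.dvd_one.mp hd)
  rw [if_neg hnd, add_zero, one_mul, h1, mul_one] at hrel
  exact hrel

theorem HeckeRel.prime_pow {e lam b : ℕ → R} (h : HeckeRel e lam b) (h1 : b 1 = 1)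
    {ℓ : ℕ} (hℓ : ℓ.Prime) (r : ℕ) :
    b (ℓ ^ (r + 2)) = b ℓ * b (ℓ ^ (r + 1)) - e ℓ * b (ℓ ^ r) := by
  have hrel := h ℓ hℓ (ℓ ^ (r + 1))
  have hd : ℓ ∣ ℓ ^ (r + 1) := dvd_pow_self ℓ (Nat.succ_ne_zero r)
  rw [if_pos hd, ← pow_succ, pow_succ ℓ r, Nat.mul_div_cancel _ hℓ.pos, ← pow_succ,
    ← h.prime_eq h1 hℓ] at hrel
  rw [← hrel]
  ring

/-- multiplicativity against a prime power. -/
theorem HeckeRel.mul_prime_pow {e lam b : ℕ → R} (h : HeckeRel e lam b) (h1 : b 1 = 1)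
    {ℓ : ℕ} (hℓ : ℓ.Prime) (n : ℕ) (hn : ¬ ℓ ∣ n) :
    ∀ k : ℕ, b (n * ℓ ^ k) = b n * b (ℓ ^ k) := by
  have key : ∀ k : ℕ, b (n * ℓ ^ k) = b n * b (ℓ ^ k) ∧
      b (n * ℓ ^ (k + 1)) = b n * b (ℓ ^ (k + 1)) := by
    intro k
    induction k with
    | zero =>
      refine ⟨by simp [h1], ?_⟩
      have hrel := h ℓ hℓ n
      rw [if_neg hn, add_zero] at hrel
      rw [pow_one, hrel, h.prime_eq h1 hℓ]
      ring
    | succ k ih =>
      refine ⟨ih.2, ?_⟩
      have hrel := h ℓ hℓ (n * ℓ ^ (k + 1))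
      have hd : ℓ ∣ n * ℓ ^ (k + 1) := Dvd.dvd.mul_left (dvd_pow_self ℓ (Nat.succ_ne_zero k)) n
      have hdiv : n * ℓ ^ (k + 1) / ℓ = n * ℓ ^ k := by
        rw [pow_succ, ← mul_assoc, Nat.mul_div_cancel _ hℓ.pos]
      rw [if_pos hd, hdiv, mul_assoc, ← pow_succ, ih.1, ih.2] at hrel
      have hpp := h.prime_pow h1 hℓ k
      rw [show k + 1 + 1 = k + 2 from rfl]
      rw [hpp, ← h.prime_eq h1 hℓ] at *
      linear_combination hrel
  exact fun k => (key k).1

theorem HeckeRel.mul_coprime {e lam b : ℕ → R} (h : HeckeRel e lam b) (h1 : b 1 = 1) :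
    ∀ m n : ℕ, m.Coprime n → b (m * n) = b m * b n := by
  intro m
  induction m using Nat.strong_induction_on with
  | _ m ih =>
    intro n hmn
    rcases Nat.eq_zero_or_pos m with h0 | hpos
    · subst h0
      have : n = 1 := by simpa using hmn
      subst this
      simp [h1]
    rcases Nat.eq_or_lt_of_le hpos with h1m | h1m
    · have hm1' : m = 1 := h1m.symm
      subst hm1'
      rw [one_mul, h1, one_mul]
    · have hm1 : m ≠ 1 := by omega
      set ℓ := m.minFac with hℓdef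
      have hℓ : ℓ.Prime := Nat.minFac_prime hm1
      have hm0 : m ≠ 0 := by omega
      obtain ⟨k, m', hm'nd, hmeq⟩ := Nat.exists_eq_pow_mul_and_not_dvd hm0 ℓ hℓ.ne_one
      have hkpos : k ≠ 0 := by
        rintro rfl
        apply hm'nd
        rw [pow_zero, one_mul] at hmeq
        rw [← hmeq]
        exact Nat.minFac_dvd m
      have hm'pos : 0 < m' := by
        rcases Nat.eq_zero_or_pos m' with h0 | h0
        · rw [h0, mul_zero] at hmeq; omega
        · exact h0
      have hm'lt : m' < m := by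
        rw [hmeq]
        calc m' = 1 * m' := (one_mul m').symm
          _ < ℓ ^ k * m' := Nat.mul_lt_mul_of_pos_right
              (Nat.one_lt_pow hkpos hℓ.one_lt) hm'pos
      have hcop' : m'.Coprime n := by
        apply Nat.Coprime.coprime_dvd_left _ hmn
        rw [hmeq]; exact Dvd.intro_left _ rfl
      have hℓn : ¬ ℓ ∣ n := by
        intro hd
        have hℓm : ℓ ∣ m := Nat.minFac_dvd m
        have := Nat.dvd_gcd hℓm hd
        rw [hmn] at this
        exact hℓ.one_lt.ne' (Nat.dvd_one.mp this)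
      have hℓm'n : ¬ ℓ ∣ m' * n := by
        intro hd
        rcases (Nat.Prime.dvd_mul hℓ).mp hd with hd | hd
        · exact hm'nd hd
        · exact hℓn hd
      have e1 : m * n = (m' * n) * ℓ ^ k := by rw [hmeq]; ring
      have e2 : m = m' * ℓ ^ k := by rw [hmeq]; ring
      rw [e1, h.mul_prime_pow h1 hℓ (m' * n) hℓm'n k, ih m' hm'lt n hcop']
      conv_rhs => rw [e2, h.mul_prime_pow h1 hℓ m' hm'nd k]
      ring

end Mult

end Fermat.Agent.S49
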