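import Fermat.Agent.S49.Hecke
import Fermat.Agent.S49.Mult

set_option autoImplicit false

namespace Fermat.Agent.S49

open CongruenceSubgroup ModularFormClass UpperHalfPlane EisensteinWeightOne
open P2MW.S_CuspForm_intLattice_fg.W3WsD

noncomputable section

variable {N : ℕ} [NeZero N]

theorem HeckeRel.smul {R : Type*} [CommRing R] {e lam b : ℕ → R} (h : HeckeRel e lam b) (c : R) :
    HeckeRel e lam (fun n => c * b n) := by
  intro ℓ hℓ n
  have := h ℓ hℓ n
  by_cases hd : ℓ ∣ n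
  · rw [if_pos hd] at this ⊢
    linear_combination c * this
  · rw [if_neg hd] at this ⊢
    linear_combination c * this

/-- level-dependent factor in the Hecke relation. -/
def eN (N : ℕ) (ℓ : ℕ) : ℂ := if ℓ ∣ N then 0 else (ℓ : ℂ)

/-- eigenvalues of a character at the standard generators. -/
def lamOf (χ : HT N →+* ℂ) (ℓ : ℕ) : ℂ :=
  if hℓ : ℓ.Prime then
    (if hN : ℓ ∣ N then χ (CuspForm.heckeAlgebra.U hℓ hN (Set.notMem_empty ℓ))
      else χ (CuspForm.heckeAlgebra.T hℓ hN (Set.notMem_empty ℓ)))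
  else 0

theorem heckeRel_of_eigen {v : CuspForm (Gamma0 N) 2} {χ : HT N →+* ℂ}
    (hχ : ∀ t, rho N t v = χ t • v) :
    HeckeRel (eN N) (lamOf χ) (fun n => qCoeff ⇑v n) := by
  intro ℓ hℓ n
  by_cases hN : ℓ ∣ N
  · have h1 := hχ (CuspForm.heckeAlgebra.U hℓ hN (Set.notMem_empty ℓ))
    rw [rho_apply, CuspForm.heckeAlgebra.coe_U] at h1
    have h2 : qCoeff ⇑((CuspForm.heckeULin 2 hN) v) n =
        qCoeff ⇑(χ (CuspForm.heckeAlgebra.U hℓ hN (Set.notMem_empty ℓ)) • v) n := by rw [h1]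
    rw [qc_heckeULin hℓ hN, qc_smul, ModularForm.coeffHeckeU_apply] at h2
    simp only [eN, lamOf, dif_pos hℓ, dif_pos hN, if_pos hN, zero_mul, ite_self, add_zero]
    exact h2
  · have h1 := hχ (CuspForm.heckeAlgebra.T hℓ hN (Set.notMem_empty ℓ))
    rw [rho_apply, CuspForm.heckeAlgebra.coe_T] at h1
    have h2 : qCoeff ⇑((CuspForm.heckeTLin 2 hℓ hN) v) n =
        qCoeff ⇑(χ (CuspForm.heckeAlgebra.T hℓ hN (Set.notMem_empty ℓ)) • v) n := by rw [h1]
    have hpow : ((ℓ : ℂ)) ^ ((2 : ℤ) - 1) = (ℓ : ℂ) := by norm_num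
    rw [qc_heckeTLin hℓ hN, qc_smul, ModularForm.coeffHeckeT_apply, hpow] at h2
    simp only [eN, lamOf, dif_pos hℓ, dif_neg hN, if_neg hN]
    exact h2

theorem exists_normalized_eigenform {v : CuspForm (Gamma0 N) 2} (hv : v ≠ 0) {χ : HT N →+* ℂ}
    (hχ : ∀ t, rho N t v = χ t • v) :
    ∃ g : CuspForm (Gamma0 N) 2, g.IsNormalizedEigenform ∧
      ∀ (ℓ : ℕ) (hℓ : ℓ.Prime) (hℓN : ¬ ℓ ∣ N),
        qCoeff ⇑g ℓ = χ (CuspForm.heckeAlgebra.T hℓ hℓN (Set.notMem_empty ℓ)) := by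
  have hrel := heckeRel_of_eigen hχ
  have hb1 : qCoeff ⇑v 1 ≠ 0 := by
    intro h1
    apply hv
    apply qc_injective N 2
    rw [map_zero]
    funext n
    rcases Nat.eq_zero_or_pos n with h0 | hpos
    · rw [h0]
      exact qc_zero_coeff v
    · exact hrel.eq_zero_of_one h1 n hpos
  set c : ℂ := (qCoeff ⇑v 1)⁻¹ with hc
  have hrel' : HeckeRel (eN N) (lamOf χ) (fun n => qCoeff ⇑(c • v) n) := by
    have := hrel.smul c
    simpa only [qc_smul] using this
  have h1 : qCoeff ⇑(c • v) 1 = 1 := by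
    rw [qc_smul, hc, inv_mul_cancel₀ hb1]
  refine ⟨c • v, ⟨h1, ?_, ?_, ?_⟩, ?_⟩
  · exact hrel'.mul_coprime h1
  · intro p r hp hpN
    have := hrel'.prime_pow h1 hp r
    simp only [eN, if_neg hpN] at this
    exact this
  · intro p r hp hpN
    have := hrel'.prime_pow h1 hp r
    simp only [eN, if_pos hpN, zero_mul, sub_zero] at this
    exact this
  · intro ℓ hℓ hℓN
    have := hrel'.prime_eq h1 hℓ
    simp only [lamOf, dif_pos hℓ, dif_neg hℓN] at this
    exact this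

end

end Fermat.Agent.S49
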