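import Fermat.Agent.S49.Hecke

set_option autoImplicit false

namespace Fermat.Agent.S49

open CongruenceSubgroup ModularFormClass UpperHalfPlane EisensteinWeightOne
open P2MW.S_CuspForm_intLattice_fg.W3WsD

noncomputable section

variable {N : ℕ} [NeZero N]

theorem three_mem_ideal3 {f₀ : CuspForm (Gamma0 N) 2} (hf₀ : f₀ ∈ CuspForm.intLattice N 2) :
    (3 : HT N) ∈ ideal3 f₀ := by
  refine ⟨f₀, hf₀, ?_⟩
  have h3 : (3 : HT N) = algebraMap ℤ (HT N) 3 := by simp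
  rw [h3, rho_apply, Subalgebra.coe_algebraMap, Algebra.algebraMap_eq_smul_one,
    LinearMap.smul_apply, Module.End.one_apply]

theorem one_notMem_ideal3 {f₀ : CuspForm (Gamma0 N) 2} {a af : ℕ → ℤ} (ha1 : a 1 = 1)
    (haf : ∀ n, (af n : ℂ) = qCoeff ⇑f₀ n) (hcong : ∀ n, (3 : ℤ) ∣ af n - a n) :
    (1 : HT N) ∉ ideal3 f₀ := by
  rintro ⟨g, hg, h1⟩
  rw [map_one, Module.End.one_apply] at h1
  rw [mem_intLattice_iff] at hg
  obtain ⟨m, hm⟩ := hg 1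
  have hq : qCoeff ⇑f₀ 1 = ((3 * m : ℤ) : ℂ) := by
    rw [h1, qCoeff_zsmul, hm]
    push_cast
    ring
  rw [← haf 1] at hq
  have hq' : af 1 = 3 * m := by exact_mod_cast hq
  have := hcong 1
  rw [hq', ha1] at this
  omega

theorem T_sub_mem_ideal3 {f₀ : CuspForm (Gamma0 N) 2} {a af : ℕ → ℤ}
    (heig : FormalHecke.IsEigensystem
      (fun ℓ => if ℓ ∣ N then 0 else ((chiNegThree ℓ : ℤ) : ℤ)) a)
    (haf : ∀ n, (af n : ℂ) = qCoeff ⇑f₀ n) (hcong : ∀ n, (3 : ℤ) ∣ af n - a n)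
    {ℓ : ℕ} (hℓ : ℓ.Prime) (hℓN : ¬ ℓ ∣ N) :
    CuspForm.heckeAlgebra.T hℓ hℓN (Set.notMem_empty ℓ) - algebraMap ℤ (HT N) (a ℓ) ∈
      ideal3 f₀ := by
  rw [mem_ideal3]
  have happ : rho N (CuspForm.heckeAlgebra.T hℓ hℓN (Set.notMem_empty ℓ) -
      algebraMap ℤ (HT N) (a ℓ)) f₀ = CuspForm.heckeTLin 2 hℓ hℓN f₀ - (a ℓ) • f₀ := by
    rw [rho_apply, Subalgebra.coe_sub, Subalgebra.coe_algebraMap, Algebra.algebraMap_eq_smul_one,
      LinearMap.sub_apply, LinearMap.smul_apply, Module.End.one_apply, CuspForm.heckeAlgebra.coe_T]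
  rw [happ]
  apply exists_eq_three_smul
  intro n
  choose u hu using hcong
  obtain ⟨w, hw⟩ := chi_mod_three ℓ
  have hrel := heig.2 ℓ hℓ n
  simp only [if_neg hℓN] at hrel
  have hqc : qCoeff ⇑(CuspForm.heckeTLin 2 hℓ hℓN f₀ - (a ℓ) • f₀) n =
      qCoeff ⇑(CuspForm.heckeTLin 2 hℓ hℓN f₀) n - (a ℓ : ℂ) * qCoeff ⇑f₀ n := by
    have := congrFun (map_sub (qc N 2) (CuspForm.heckeTLin 2 hℓ hℓN f₀) ((a ℓ) • f₀)) n
    simp only [qc_apply, Pi.sub_apply] at this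
    rw [this, qCoeff_zsmul]
  have hpow : ((ℓ : ℂ)) ^ ((2 : ℤ) - 1) = (ℓ : ℂ) := by norm_num
  rw [hqc, qc_heckeTLin, ModularForm.coeffHeckeT_apply, ← haf, ← haf, ← haf, hpow]
  have e1 : af (n * ℓ) = a (ℓ * n) + 3 * u (n * ℓ) := by
    have := hu (n * ℓ); rw [mul_comm ℓ n]; linarith
  have e2 : af n = a n + 3 * u n := by have := hu n; linarith
  have e3 : af (n / ℓ) = a (n / ℓ) + 3 * u (n / ℓ) := by have := hu (n / ℓ); linarith
  have e4 : (ℓ : ℤ) = chiNegThree ℓ + 3 * w := by linarith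
  by_cases hd : ℓ ∣ n
  · rw [if_pos hd] at hrel ⊢
    refine ⟨u (n * ℓ) + w * a (n / ℓ) + ℓ * u (n / ℓ) - a ℓ * u n, ?_⟩
    have hint : af (n * ℓ) + (ℓ : ℤ) * af (n / ℓ) - a ℓ * af n =
        3 * (u (n * ℓ) + w * a (n / ℓ) + ℓ * u (n / ℓ) - a ℓ * u n) := by
      rw [e1, e2, e3]
      linear_combination hrel + a (n / ℓ) * e4
    rw [← hint]
    push_cast
    ring
  · rw [if_neg hd] at hrel ⊢
    refine ⟨u (n * ℓ) - a ℓ * u n, ?_⟩
    have hint : af (n * ℓ) - a ℓ * af n = 3 * (u (n * ℓ) - a ℓ * u n) := by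
      rw [e1, e2]
      linear_combination hrel
    rw [← hint]
    push_cast
    ring

end

end Fermat.Agent.S49
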