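import Mathlib
import Fermat.Prelude.Def_CuspForm_IntegralLattice
import Fermat.Prelude.Def_FormalHecke_Eigensystem
import Fermat.Prelude.Def_CuspForm_HeckeAlgebra
import Fermat.Prelude.Def_CuspForm_IntegralStructure
import Fermat.Prelude.Thm_CuspForm_intLattice_fg
import Fermat.Prelude.Thm_CuspForm_mem_intLattice_of_mem_heckeAlgebra
import Fermat.Prelude.Thm_ModularFormClass_qCoeff_heckeT
import Fermat.Prelude.Thm_ModularFormClass_qCoeff_heckeU
import Fermat.Prelude.Thm_ModularForm_sturm_bound_Gamma0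
import Fermat.Prelude.Thm_CongruenceSubgroup_one_mem_strictPeriods_Gamma0

set_option autoImplicit false

namespace Fermat.Agent.S49

open CongruenceSubgroup ModularFormClass UpperHalfPlane
open P2MW.S_CuspForm_intLattice_fg.W3WsD

noncomputable section

variable {N : ℕ} {k : ℤ}

theorem qc_smul (c : ℂ) (f : CuspForm (Gamma0 N) k) (n : ℕ) :
    qCoeff ⇑(c • f) n = c * qCoeff ⇑f n := by
  have h1 : ⇑(c • f) = c • ⇑f := by
    ext z
    simp
  simp only [qCoeff, h1]
  rw [ModularForm.qExpansion_smul one_pos (hΓ N) c f]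
  simp

theorem qc_zero_coeff (f : CuspForm (Gamma0 N) k) : qCoeff ⇑f 0 = 0 :=
  CuspFormClass.qExpansion_coeff_zero f one_pos (hΓ N)

/-- q-coefficients as a linear map. -/
def qc (N : ℕ) (k : ℤ) : CuspForm (Gamma0 N) k →ₗ[ℂ] (ℕ → ℂ) where
  toFun f n := qCoeff ⇑f n
  map_add' f g := by
    funext n
    exact qCoeff_add f g n
  map_smul' c f := by
    funext n
    simp only [Pi.smul_apply, RingHom.id_apply, smul_eq_mul]
    exact qc_smul c f n

@[simp] theorem qc_apply (f : CuspForm (Gamma0 N) k) (n : ℕ) : qc N k f n = qCoeff ⇑f n := rfl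

theorem qc_injective (N : ℕ) [NeZero N] (k : ℤ) : Function.Injective (qc N k) := by
  refine (injective_iff_map_eq_zero _).mpr fun f hf => ?_
  apply trunc_injective N k
  rw [map_zero]
  funext i
  exact congrFun hf i

instance finiteDimensional_cuspForm (N : ℕ) [NeZero N] (k : ℤ) :
    FiniteDimensional ℂ (CuspForm (Gamma0 N) k) := by
  let B := sturmB N k
  let tr : CuspForm (Gamma0 N) k →ₗ[ℂ] (Fin (B + 1) → ℂ) :=
    (LinearMap.funLeft ℂ ℂ (fun i : Fin (B + 1) => (i : ℕ))) ∘ₗ qc N k
  have hinj : Function.Injective tr := by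
    refine (injective_iff_map_eq_zero _).mpr fun f hf => ?_
    apply trunc_injective N k
    rw [map_zero]
    funext i
    exact congrFun hf i
  exact FiniteDimensional.of_injective tr hinj

theorem mem_qIntegralSet_iff (f : CuspForm (Gamma0 N) 2) :
    f ∈ CuspForm.qIntegralSet N ↔ f ∈ CuspForm.intLattice N 2 := by
  rw [mem_intLattice_iff]
  constructor
  · intro h n
    obtain ⟨m, hm⟩ := Subring.mem_bot.mp (h n)
    exact ⟨m, hm.symm⟩
  · intro h n
    obtain ⟨m, hm⟩ := h n
    exact Subring.mem_bot.mpr ⟨m, hm.symm⟩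

theorem qIntegralSet_eq (N : ℕ) :
    CuspForm.qIntegralSet N = (CuspForm.intLattice N 2 : Set (CuspForm (Gamma0 N) 2)) := by
  ext f
  exact mem_qIntegralSet_iff f

end

end Fermat.Agent.S49
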