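import Fermat.Agent.S49.Arith

set_option autoImplicit false

namespace Fermat.Agent.S49

open CongruenceSubgroup ModularFormClass UpperHalfPlane EisensteinWeightOne
open P2MW.S_CuspForm_intLattice_fg.W3WsD

noncomputable section

variable {N : ℕ} [NeZero N]

/-- the Hecke ring acting on weight two cusp forms. -/
abbrev HT (N : ℕ) [NeZero N] := CuspForm.heckeAlgebra N 2 ∅

/-- the tautological action. -/
def rho (N : ℕ) [NeZero N] : HT N →+* Module.End ℂ (CuspForm (Gamma0 N) 2) :=
  (CuspForm.heckeAlgebra N 2 ∅).val.toRingHom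

theorem rho_apply (t : HT N) : rho N t = (t : Module.End ℂ (CuspForm (Gamma0 N) 2)) := rfl

theorem rho_injective : Function.Injective (rho N) := Subtype.val_injective

theorem rho_mem_lattice (t : HT N) {g : CuspForm (Gamma0 N) 2}
    (hg : g ∈ CuspForm.intLattice N 2) : rho N t g ∈ CuspForm.intLattice N 2 :=
  CuspForm.mem_intLattice_of_mem_heckeAlgebra (by norm_num) t.2 hg

/-- elements of the Hecke ring sending `f₀` into three times the lattice. -/
def ideal3 (f₀ : CuspForm (Gamma0 N) 2) : Ideal (HT N) where
  carrier := {t | ∃ g ∈ CuspForm.intLattice N 2, rho N t f₀ = (3 : ℤ) • g}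
  add_mem' := by
    rintro s t ⟨g, hg, hs⟩ ⟨g', hg', ht⟩
    refine ⟨g + g', add_mem hg hg', ?_⟩
    rw [map_add, LinearMap.add_apply, hs, ht, smul_add]
  zero_mem' := ⟨0, zero_mem _, by simp⟩
  smul_mem' := by
    rintro s t ⟨g, hg, ht⟩
    refine ⟨rho N s g, rho_mem_lattice s hg, ?_⟩
    rw [smul_eq_mul, map_mul, Module.End.mul_apply, ht, map_zsmul]

theorem mem_ideal3 (f₀ : CuspForm (Gamma0 N) 2) (t : HT N) :
    t ∈ ideal3 f₀ ↔ ∃ g ∈ CuspForm.intLattice N 2, rho N t f₀ = (3 : ℤ) • g := Iff.rfl

theorem moduleFinite_hecke (h : CuspForm.HasIntegralBasis N) : Module.Finite ℤ (HT N) := by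
  classical
  obtain ⟨s, hs⟩ := CuspForm.intLattice_fg N 2
  have hLnoeth : IsNoetherian ℤ (CuspForm.intLattice N 2) :=
    isNoetherian_of_fg_of_noetherian _ (CuspForm.intLattice_fg N 2)
  have hsL : ∀ g : s, (g : CuspForm (Gamma0 N) 2) ∈ CuspForm.intLattice N 2 := by
    intro g
    rw [← hs]
    exact Submodule.subset_span g.2
  let ev : HT N →ₗ[ℤ] (s → CuspForm.intLattice N 2) :=
    { toFun := fun t g => ⟨rho N t g, rho_mem_lattice t (hsL g)⟩
      map_add' := by
        intro t t'
        funext g
        apply Subtype.ext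
        simp [map_add]
      map_smul' := by
        intro c t
        funext g
        apply Subtype.ext
        simp [rho] }
  have hinj : Function.Injective ev := by
    refine (injective_iff_map_eq_zero _).mpr fun t ht => ?_
    apply rho_injective
    rw [map_zero]
    have hspan : Submodule.span ℂ (CuspForm.qIntegralSet N) = ⊤ := h
    apply LinearMap.ext_on hspan
    intro x hx
    rw [qIntegralSet_eq, SetLike.mem_coe, ← hs] at hx
    rw [LinearMap.zero_apply]
    induction hx using Submodule.span_induction with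
    | mem y hy =>
      have := congrFun ht ⟨y, hy⟩
      exact congrArg Subtype.val this
    | zero => simp
    | add y z _ _ hy hz => rw [map_add, hy, hz, add_zero]
    | smul c y _ hy => rw [map_zsmul, hy, smul_zero]
  exact Module.Finite.of_injective ev hinj

end

end Fermat.Agent.S49
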